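import Fermat.Agent.MLT.Two.Selmer.Rep

/-!
# Local facts on the antidiagonal representation and its self-duality
-/

set_option autoImplicit false

noncomputable section

open CategoryTheory Module groupCohomology ExtCitation Matrix

namespace FermatLib.MLT.Two

local notation "Qbar" => AlgebraicClosure ℚ
local notation "Γℚ" => (AlgebraicClosure ℚ ≃ₐ[ℚ] AlgebraicClosure ℚ)

variable {k : Type} [Field k] (a : Anchor k) [Algebra (ZMod 2) k]

lemma Anchor.sq_eq_one_iff (a : Anchor k) {x : k} : x ^ 2 = 1 ↔ x = 1 := by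
  refine ⟨fun h => ?_, fun h => by rw [h, one_pow]⟩
  refine sub_eq_zero.mp (pow_eq_zero_iff two_ne_zero |>.mp ?_)
  linear_combination h + (1 - x) * a.two_eq_zero

lemma antiRep_rot {g : Γℚ} {u v : k} (h1 : a.ρ g = !![u, 0; 0, v])
    (h2 : a.ρ g⁻¹ = !![v, 0; 0, u]) (w : k × k) :
    (antiRep a).ρ g w = (u ^ 2 * w.1, v ^ 2 * w.2) := by
  rw [antiRep_apply, h1, h2]
  simp [antiVec, antiMat, Matrix.mul_apply, Fin.sum_univ_two]
  constructor <;> ring

lemma antiRep_swap {g : Γℚ} {u v : k} (h1 : a.ρ g = !![0, u; v, 0])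
    (h2 : a.ρ g⁻¹ = !![0, u; v, 0]) (w : k × k) :
    (antiRep a).ρ g w = (u ^ 2 * w.2, v ^ 2 * w.1) := by
  rw [antiRep_apply, h1, h2]
  simp [antiVec, antiMat, Matrix.mul_apply, Fin.sum_univ_two]
  constructor <;> ring

lemma finrank_antiRep [Finite k] :
    finrank (ZMod 2) (antiRep a) = finrank (ZMod 2) k + finrank (ZMod 2) k :=
  Module.finrank_prod

lemma moved_eq_top_of_rot {g : Γℚ} (hd : a.ρ g 0 1 = 0) (hne : a.ρ g ≠ 1) :
    moved (antiRep a) g = ⊤ := by
  rcases a.shape g with ⟨u, v, huv, -, h1, h2⟩ | ⟨u, v, huv, -, h1, -⟩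
  · have hu : u ^ 2 - 1 ≠ 0 := fun h => hne (by
      have hu1 : u = 1 := a.sq_eq_one_iff.mp (sub_eq_zero.mp h)
      rw [hu1, one_mul] at huv
      rw [h1, hu1, huv]
      exact Matrix.one_fin_two.symm)
    have hv : v ^ 2 - 1 ≠ 0 := fun h => hu (by
      have hv1 : v = 1 := a.sq_eq_one_iff.mp (sub_eq_zero.mp h)
      rw [hv1, mul_one] at huv
      rw [huv, one_pow, sub_self])
    refine eq_top_iff.mpr fun w _ => ⟨(w.1 / (u ^ 2 - 1), w.2 / (v ^ 2 - 1)), ?_⟩
    rw [LinearMap.sub_apply, Module.End.one_apply, antiRep_rot a h1 h2]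
    exact Prod.ext (by simp only [Prod.fst_sub]; field_simp)
      (by simp only [Prod.snd_sub]; field_simp)
  · rw [h1] at hd
    simp only [Matrix.of_apply, Matrix.cons_val', Matrix.cons_val_zero, Matrix.cons_val_one,
      Matrix.cons_val_fin_one, Matrix.empty_val'] at hd
    rw [hd, zero_mul] at huv
    exact absurd huv zero_ne_one

lemma exists_swap_shape {g : Γℚ} (hd : a.ρ g 0 1 ≠ 0) :
    ∃ u v : k, u * v = 1 ∧ a.ρ g = !![0, u; v, 0] ∧ a.ρ g⁻¹ = !![0, u; v, 0] := by
  rcases a.shape g with ⟨u, v, -, -, h1, -⟩ | ⟨u, v, huv, -, h1, h2⟩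
  · exact absurd (by rw [h1]; rfl) hd
  · exact ⟨u, v, huv, h1, h2⟩

/-- At a swap type element: the moved vectors have at least half the dimension and contain the
fixed ones. -/
lemma swap_moved [Finite k] {g : Γℚ} (hd : a.ρ g 0 1 ≠ 0) :
    finrank (ZMod 2) k ≤ finrank (ZMod 2) (moved (antiRep a) g) ∧
      ∀ w, (antiRep a).ρ g w = w → w ∈ moved (antiRep a) g := by
  obtain ⟨u, v, huv, h1, h2⟩ := exists_swap_shape a hd
  have := a.charP
  have hmem : ∀ x : k, ((x, v ^ 2 * x) : k × k) ∈ moved (antiRep a) g := fun x => by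
    refine ⟨((x, 0) : k × k), ?_⟩
    rw [LinearMap.sub_apply, Module.End.one_apply, antiRep_swap a h1 h2]
    exact Prod.ext (by simp only [Prod.fst_sub]; rw [mul_zero, zero_sub, CharTwo.neg_eq])
      (by simp only [Prod.snd_sub, sub_zero])
  constructor
  · let f : k →ₗ[ZMod 2] moved (antiRep a) g :=
      { toFun := fun x => ⟨(x, v ^ 2 * x), hmem x⟩
        map_add' := fun x y => Subtype.ext (Prod.ext rfl (mul_add _ _ _))
        map_smul' := fun c x => Subtype.ext (Prod.ext rfl (mul_smul_comm c _ _)) }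
    exact LinearMap.finrank_le_finrank_of_injective (f := f) fun x y h =>
      congrArg (fun z : moved (antiRep a) g => (z.1 : k × k).1) h
  · intro w hw
    rw [antiRep_swap a h1 h2] at hw
    have h : v ^ 2 * w.1 = w.2 := congrArg Prod.snd hw
    have := hmem w.1
    rw [h] at this
    exact this

/-- Complex conjugation is of swap type. -/
lemma complexConjugation_swap : a.ρ complexConjugation 0 1 ≠ 0 := by
  intro h
  obtain ⟨x, hx⟩ := IsAlgClosed.exists_eq_mul_self (-(a.N : Qbar))
  have hfix := (a.diag_iff complexConjugation).mp h x hx.symm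
  have hre := complexEmbedding_complexConjugation x
  rw [hfix] at hre
  obtain ⟨r, hr⟩ := Complex.conj_eq_iff_real.mp hre.symm
  have hsq := congrArg complexEmbedding hx.symm
  rw [map_mul, hr, map_neg, map_natCast] at hsq
  have h2 : r * r = -(a.N : ℝ) := by exact_mod_cast hsq
  have hN : (0 : ℝ) < a.N := by
    have := a.level_mod
    exact_mod_cast (show 0 < a.N by omega)
  nlinarith [mul_self_nonneg r]

/-- No global invariants. -/
lemma antiRep_invariants_eq_zero (w : antiRep a) (hw : ∀ g, (antiRep a).ρ g w = w) : w = 0 := by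
  obtain ⟨g, hg⟩ := a.exists_rot
  rcases a.shape g with ⟨u, v, huv, -, h1, h2⟩ | ⟨u, v, huv, -, h1, -⟩
  · have hu : u = a.ω := by
      have := congrFun (congrFun (h1.symm.trans hg) 0) 0
      simpa [rotMat] using this
    have hu2 : u ^ 2 ≠ 1 := fun h => a.omega_ne_one (hu ▸ a.sq_eq_one_iff.mp h)
    have hv2 : v ^ 2 ≠ 1 := fun h => hu2 (by
      rw [show v = 1 from a.sq_eq_one_iff.mp h, mul_one] at huv
      rw [huv, one_pow])
    have h := hw g
    rw [antiRep_rot a h1 h2] at h
    have e1 : (u ^ 2 - 1) * w.1 = 0 := by linear_combination congrArg Prod.fst h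
    have e2 : (v ^ 2 - 1) * w.2 = 0 := by linear_combination congrArg Prod.snd h
    exact Prod.ext ((mul_eq_zero.mp e1).resolve_left (sub_ne_zero.mpr hu2))
      ((mul_eq_zero.mp e2).resolve_left (sub_ne_zero.mpr hv2))
  · have := congrFun (congrFun (h1.symm.trans hg) 0) 0
    simp [rotMat] at this
    exact absurd this.symm a.omega_ne_zero

/-- At a prime of the level, inertia-fixed vectors are fixed by the local group. -/
lemma level_fix (q : Nat.Primes) (hq : (q : ℕ) ∣ a.N) (w : antiRep a)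
    (hw : ∀ g, primeLocalToGlobal q g ∈ (primeLocalPlace q).inertiaSubgroupIn ℚ →
      (antiRep a).ρ (primeLocalToGlobal q g) w = w) (g : primeLocalGaloisGroup q) :
    (antiRep a).ρ (primeLocalToGlobal q g) w = w := by
  have hA := CFT.padicPlace_liesOverPrime q
  obtain ⟨⟨τ, hτ, hne⟩, hprod⟩ := a.level_transvection q q.2 hq _ hA
  obtain ⟨gτ, rfl⟩ := CFT.exists_local_of_mem_inertia q hτ
  obtain ⟨u, v, huv, hf⟩ := exists_swap_of_sq_eq_zero a hne (hprod _ hτ _ hτ)
  have hd01 : a.ρ (primeLocalToGlobal q gτ) 0 1 ≠ 0 := by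
    rw [hf]
    exact left_ne_zero_of_mul_eq_one huv
  obtain ⟨u₁, v₁, -, hs1, hs2⟩ := exists_swap_shape a hd01
  have hu₁ : u₁ = u := by
    have := congrFun (congrFun (hs1.symm.trans hf) 0) 1
    simpa using this
  have hv₁ : v₁ = v := by
    have := congrFun (congrFun (hs1.symm.trans hf) 1) 0
    simpa using this
  rw [hu₁, hv₁] at hs2
  have hwfix := hw gτ hτ
  rw [antiRep_swap a hf hs2] at hwfix
  -- the conjugate of `τ` lies in inertia, so acts like `τ`
  set σ := primeLocalToGlobal q g with hσdef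
  have hdec : σ⁻¹ ∈ (padicPlace (q : ℕ)).decompositionSubgroup ℚ := by
    rw [CFT.decompositionSubgroup_padicPlace]
    exact ⟨g⁻¹, map_inv _ g⟩
  have hτ' := Galois.conj_mem_inertia_of_mem_decomposition hdec hτ
  rw [inv_inv] at hτ'
  have hne' : a.ρ (σ⁻¹ * primeLocalToGlobal q gτ * σ) ≠ 1 := fun h => hne (by
    rw [map_mul, map_mul] at h
    calc a.ρ (primeLocalToGlobal q gτ)
        = a.ρ σ * (a.ρ σ⁻¹ * a.ρ (primeLocalToGlobal q gτ) * a.ρ σ) * a.ρ σ⁻¹ := by
          simp only [← Matrix.mul_assoc, a.rho_mul_inv, Matrix.one_mul]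
          rw [Matrix.mul_assoc, a.rho_mul_inv, Matrix.mul_one]
      _ = 1 := by rw [h, Matrix.mul_one, a.rho_mul_inv])
  obtain ⟨u', v', huv', hf'⟩ := exists_swap_of_sq_eq_zero a hne' (hprod _ hτ' _ hτ')
  have h2 : (2 : k) = 0 := a.two_eq_zero
  have huu : u' = u := by
    have h := congrFun (congrFun (hprod _ hτ _ hτ') 0) 0
    rw [hf, hf'] at h
    simp [Matrix.mul_apply, Fin.sum_univ_two, Matrix.one_apply] at h
    linear_combination u' * h - u * huv' - u * h2
  have hvv : v' = v := by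
    rw [huu] at huv'
    exact mul_left_cancel₀ (left_ne_zero_of_mul_eq_one huv) (huv'.trans huv.symm)
  have hcomm : a.ρ σ * a.ρ (primeLocalToGlobal q gτ) =
      a.ρ (primeLocalToGlobal q gτ) * a.ρ σ := by
    calc a.ρ σ * a.ρ (primeLocalToGlobal q gτ)
        = a.ρ σ * a.ρ (σ⁻¹ * primeLocalToGlobal q gτ * σ) := by rw [hf', hf, huu, hvv]
      _ = _ := by rw [← map_mul, ← map_mul, mul_assoc, mul_inv_cancel_left]
  rcases a.shape σ with ⟨r, s, hrs, -, e1, e2⟩ | ⟨r, s, hrs, -, e1, e2⟩
  · rw [e1, hf] at hcomm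
    have h := congrFun (congrFun hcomm 0) 1
    simp [Matrix.mul_apply, Fin.sum_univ_two] at h
    have hrs' : r = s := mul_right_cancel₀ (left_ne_zero_of_mul_eq_one huv)
      (h.trans (mul_comm u s))
    subst hrs'
    rw [antiRep_rot a e1 e2, show r ^ 2 = 1 by rw [sq, hrs], one_mul, one_mul]
  · rw [e1, hf] at hcomm
    have h := congrFun (congrFun hcomm 0) 0
    simp [Matrix.mul_apply, Fin.sum_univ_two] at h
    have hru : r = u := by
      have h' : (r - u) ^ 2 = 0 := by
        linear_combination (r * u) * h - r ^ 2 * huv + u ^ 2 * hrs + (u ^ 2 - r * u) * h2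
      exact sub_eq_zero.mp (pow_eq_zero_iff two_ne_zero |>.mp h')
    subst hru
    have hsv : s = v := mul_left_cancel₀ (left_ne_zero_of_mul_eq_one huv) (hrs.trans huv.symm)
    subst hsv
    rw [antiRep_swap a e1 e2]
    exact hwfix

section Dual

variable [Finite k]

/-- A functional on `k` not killing one. -/
lemma exists_functional : ∃ ℓ : k →ₗ[ZMod 2] ZMod 2, ℓ 1 ≠ 0 := by
  by_contra! h
  exact one_ne_zero ((Module.forall_dual_apply_eq_zero_iff (ZMod 2) (1 : k)).mp h)

/-- A chosen functional on `k`. -/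
def antiFunctional : k →ₗ[ZMod 2] ZMod 2 := exists_functional.choose

/-- The trace pairing on `W`. -/
def antiPair : (k × k) →ₗ[ZMod 2] Module.Dual (ZMod 2) (k × k) :=
  LinearMap.mk₂ (ZMod 2) (fun x y => antiFunctional (x.1 * y.2 + x.2 * y.1))
    (fun x x' y => by rw [← map_add]; congr 1; simp only [Prod.fst_add, Prod.snd_add]; ring)
    (fun c x y => by
      rw [← map_smul]; congr 1
      simp only [Prod.smul_fst, Prod.smul_snd, smul_mul_assoc, smul_add])
    (fun x y y' => by rw [← map_add]; congr 1; simp only [Prod.fst_add, Prod.snd_add]; ring)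
    (fun c x y => by
      rw [← map_smul]; congr 1
      simp only [Prod.smul_fst, Prod.smul_snd, mul_smul_comm, smul_add])

lemma antiPair_apply (x y : k × k) :
    antiPair x y = antiFunctional (x.1 * y.2 + x.2 * y.1) := rfl

lemma antiPair_injective : Function.Injective (antiPair (k := k)) := by
  rw [← LinearMap.ker_eq_bot, Submodule.eq_bot_iff]
  intro x hx
  have hx' : ∀ y : k × k, antiFunctional (x.1 * y.2 + x.2 * y.1) = 0 := fun y => by
    rw [← antiPair_apply, LinearMap.mem_ker.mp hx, LinearMap.zero_apply]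
  have hℓ : antiFunctional (1 : k) ≠ 0 := (exists_functional (k := k)).choose_spec
  refine Prod.ext ?_ ?_
  · by_contra h
    have := hx' (0, x.1⁻¹)
    rw [mul_inv_cancel₀ h, mul_zero, add_zero] at this
    exact hℓ this
  · by_contra h
    have := hx' (x.2⁻¹, 0)
    rw [mul_inv_cancel₀ h, mul_zero, zero_add] at this
    exact hℓ this

/-- `W` is its own dual twist. -/
def antiDual : (k × k) ≃ₗ[ZMod 2] Module.Dual (ZMod 2) (k × k) :=
  LinearEquiv.ofBijective antiPair ⟨antiPair_injective,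
    (LinearMap.injective_iff_surjective_of_finrank_eq_finrank Subspace.dual_finrank_eq.symm).mp
      antiPair_injective⟩

lemma antiDual_apply (x y : k × k) :
    antiDual x y = antiFunctional (x.1 * y.2 + x.2 * y.1) := rfl

lemma antiDual_equivariant (g : Γℚ) (x : k × k) :
    antiDual ((antiRep a).ρ g x) =
      ((antiRep a).dualTwist (cycloChar 2)).ρ g (antiDual x) := by
  refine (LinearMap.ext fun y => ?_).trans
    (Rep.dualTwist_ρ_apply (antiRep a) (cycloChar 2) g (antiDual x)).symm
  rw [MLT2.cycloChar_two_eq_one, Units.val_one, one_smul, LinearMap.comp_apply]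
  rcases a.shape g with ⟨u, v, huv, -, h1, h2⟩ | ⟨u, v, huv, -, h1, h2⟩
  · rw [antiRep_rot a h1 h2, antiRep_rot a h2 (by rw [inv_inv]; exact h1), antiDual_apply,
      antiDual_apply]
    congr 1
    ring
  · rw [antiRep_swap a h1 h2, antiRep_swap a h2 (by rw [inv_inv]; exact h1), antiDual_apply,
      antiDual_apply]
    congr 1
    ring

end Dual

end FermatLib.MLT.Two
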