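import Fermat.Agent.MLT.Two.Level
import Fermat.Agent.MLT.Two.AnchorOmega
import Fermat.Agent.MLT.Two.SelmerStep

/-!
# The antidiagonal adjoint representation of an anchor as an `𝔽₂`-representation

`antiRep a` is `k × k` for the antidiagonal matrices `!![0, x; y, 0]` under conjugation by `a.ρ`.
-/

set_option autoImplicit false

noncomputable section

open CategoryTheory Module groupCohomology ExtCitation Matrix

namespace FermatLib.MLT.Two

local notation "Qbar" => AlgebraicClosure ℚ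
local notation "Γℚ" => (AlgebraicClosure ℚ ≃ₐ[ℚ] AlgebraicClosure ℚ)

variable {k : Type} [Field k] (a : Anchor k)

/-- The antidiagonal matrix with given entries. -/
def antiMat (v : k × k) : Matrix (Fin 2) (Fin 2) k := !![0, v.1; v.2, 0]

/-- The antidiagonal entries. -/
def antiVec (X : Matrix (Fin 2) (Fin 2) k) : k × k := (X 0 1, X 1 0)

lemma antiVec_antiMat (v : k × k) : antiVec (antiMat v) = v := by simp [antiVec, antiMat]

lemma antiVec_add (X Y : Matrix (Fin 2) (Fin 2) k) : antiVec (X + Y) = antiVec X + antiVec Y := rfl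

lemma antiVec_sub (X Y : Matrix (Fin 2) (Fin 2) k) : antiVec (X - Y) = antiVec X - antiVec Y := rfl

lemma antiMat_antiVec (X : Matrix (Fin 2) (Fin 2) k) : antiMat (antiVec X) = offDiag X := rfl

lemma offDiag_antiMat (v : k × k) : offDiag (antiMat v) = antiMat v := by
  ext i j; fin_cases i <;> fin_cases j <;> simp [offDiag, antiMat]

lemma antiMat_add (v w : k × k) : antiMat (v + w) = antiMat v + antiMat w := by
  ext i j; fin_cases i <;> fin_cases j <;> simp [antiMat]


/-- The two shapes of `a.ρ g`, with inverse. -/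
lemma Anchor.shape (g : Γℚ) :
    (∃ u v : k, u * v = 1 ∧ u ^ 3 = 1 ∧ a.ρ g = !![u, 0; 0, v] ∧ a.ρ g⁻¹ = !![v, 0; 0, u]) ∨
    (∃ u v : k, u * v = 1 ∧ u ^ 3 = 1 ∧ a.ρ g = !![0, u; v, 0] ∧ a.ρ g⁻¹ = !![0, u; v, 0]) := by
  have h : ∀ i : ℕ, a.ω ^ i * a.ω ^ (2 * i) = 1 ∧ (a.ω ^ i) ^ 3 = 1 := fun i => by
    refine ⟨?_, ?_⟩
    · rw [← pow_add, show i + 2 * i = 3 * i by ring, pow_mul, a.omega_cube, one_pow]
    · rw [← pow_mul, mul_comm, pow_mul, a.omega_cube, one_pow]
  have hinv : ∀ X : Matrix (Fin 2) (Fin 2) k, a.ρ g * X = 1 → a.ρ g⁻¹ = X := fun X hX => by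
    calc a.ρ g⁻¹ = a.ρ g⁻¹ * (a.ρ g * X) := by rw [hX, Matrix.mul_one]
      _ = X := by rw [← Matrix.mul_assoc, ← map_mul, inv_mul_cancel, map_one, Matrix.one_mul]
  obtain ⟨i, hi | hi⟩ := a.range_eq g
  · refine Or.inl ⟨_, _, (h i).1, (h i).2, hi, hinv _ ?_⟩
    rw [hi, rotMat]
    ext r s
    fin_cases r <;> fin_cases s <;>
      simp [Matrix.mul_apply, Fin.sum_univ_two, (h i).1, mul_comm (a.ω ^ (2 * i))]
  · refine Or.inr ⟨_, _, (h i).1, (h i).2, hi, hinv _ ?_⟩
    rw [hi, swapMat]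
    ext r s
    fin_cases r <;> fin_cases s <;>
      simp [Matrix.mul_apply, Fin.sum_univ_two, (h i).1, mul_comm (a.ω ^ (2 * i))]

/-- Conjugation by `a.ρ g` commutes with taking the antidiagonal part. -/
lemma Anchor.offDiag_conj (g : Γℚ) (X : Matrix (Fin 2) (Fin 2) k) :
    offDiag (a.ρ g * X * a.ρ g⁻¹) = a.ρ g * offDiag X * a.ρ g⁻¹ := by
  rcases a.shape g with ⟨u, v, -, -, h1, h2⟩ | ⟨u, v, -, -, h1, h2⟩ <;> rw [h1, h2] <;>
    (ext r s; fin_cases r <;> fin_cases s <;>
      simp [offDiag, Matrix.mul_apply, Matrix.vecMul, dotProduct, Fin.sum_univ_two])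

variable [Algebra (ZMod 2) k]

/-- The action of `g` on the antidiagonal entries. -/
def antiAct (g : Γℚ) : (k × k) →ₗ[ZMod 2] (k × k) where
  toFun v := antiVec (a.ρ g * antiMat v * a.ρ g⁻¹)
  map_add' v w := by rw [antiMat_add, Matrix.mul_add, Matrix.add_mul, antiVec_add]
  map_smul' c v := by
    have : ∀ x : ZMod 2, x = 0 ∨ x = 1 := by decide
    rcases this c with rfl | rfl
    · rw [RingHom.id_apply, zero_smul, zero_smul]
      have : antiMat (0 : k × k) = 0 := by
        ext i j; fin_cases i <;> fin_cases j <;> simp [antiMat]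
      rw [this, Matrix.mul_zero, Matrix.zero_mul]
      rfl
    · rw [RingHom.id_apply, one_smul, one_smul]

lemma antiMat_antiAct (g : Γℚ) (v : k × k) :
    antiMat (antiAct a g v) = a.ρ g * antiMat v * a.ρ g⁻¹ := by
  show antiMat (antiVec _) = _
  rw [antiMat_antiVec, a.offDiag_conj, offDiag_antiMat]

/-- The antidiagonal representation. -/
def antiRepresentation : Representation (ZMod 2) Γℚ (k × k) where
  toFun := antiAct a
  map_one' := LinearMap.ext fun v => by
    show antiVec (a.ρ 1 * antiMat v * a.ρ 1⁻¹) = v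
    rw [inv_one, map_one, Matrix.one_mul, Matrix.mul_one, antiVec_antiMat]
  map_mul' g h := LinearMap.ext fun v => by
    show antiVec (a.ρ (g * h) * antiMat v * a.ρ (g * h)⁻¹) = antiVec (a.ρ g * antiMat _ * a.ρ g⁻¹)
    rw [antiMat_antiAct, _root_.mul_inv_rev, map_mul, map_mul]
    simp only [Matrix.mul_assoc]

/-- `W`: the antidiagonal part of the adjoint representation over `𝔽₂`. -/
abbrev antiRep : Rep (ZMod 2) Γℚ := Rep.of (antiRepresentation a)

lemma antiRep_apply (g : Γℚ) (v : k × k) :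
    (antiRep a).ρ g v = antiVec (a.ρ g * antiMat v * a.ρ g⁻¹) := rfl

lemma antiRep_eq_self_of_rho_eq_one {g : Γℚ} (hg : a.ρ g = 1) : (antiRep a).ρ g = 1 := by
  have hg' : a.ρ g⁻¹ = 1 := by
    have := a.rho_inv_mul g
    rwa [hg, Matrix.mul_one] at this
  exact LinearMap.ext fun v => by
    rw [antiRep_apply, hg, hg', Matrix.one_mul, Matrix.mul_one, antiVec_antiMat]
    rfl

lemma antiVec_adCobdry (M : Matrix (Fin 2) (Fin 2) k) (g : Γℚ) :
    antiVec (adCobdry a M g) = (antiRep a).ρ g (antiVec M) - antiVec M := by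
  rw [adCobdry, antiVec_sub, antiRep_apply, antiMat_antiVec, ← a.offDiag_conj]
  rfl

lemma antiRep_smooth (m : antiRep a) : ∃ F : IntermediateField ℚ Qbar, FiniteDimensional ℚ F ∧
    ∀ s ∈ F.fixingSubgroup, (antiRep a).ρ s m = m := by
  obtain ⟨F, hF, h⟩ := a.finiteLevel
  refine ⟨F, hF, fun s hs => ?_⟩
  rw [antiRep_eq_self_of_rho_eq_one a (h s fun x hx =>
    (IntermediateField.mem_fixingSubgroup_iff F s).mp hs x hx)]
  rfl

/-- The cocycle of `W` given by an adjoint cocycle. -/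
def antiCocycle {c : Γℚ → Matrix (Fin 2) (Fin 2) k} (hc : IsAdCocycle a c) :
    cocycles₁ (antiRep a) :=
  ⟨fun g => antiVec (c g), (mem_cocycles₁_iff (A := antiRep a) _).2 fun g h => by
    show antiVec (c (g * h)) = (antiRep a).ρ g (antiVec (c h)) + antiVec (c g)
    rw [hc.map_mul, antiVec_add, antiRep_apply, antiMat_antiVec, ← a.offDiag_conj, add_comm]
    rfl⟩

lemma antiCocycle_apply {c : Γℚ → Matrix (Fin 2) (Fin 2) k} (hc : IsAdCocycle a c) (g : Γℚ) :
    antiCocycle a hc g = antiVec (c g) := rfl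

/-- The class in `H¹(W)` of the antidiagonal part of an adjoint cocycle. -/
def antiClass {c : Γℚ → Matrix (Fin 2) (Fin 2) k} (hc : IsAdCocycle a c) : H1 (antiRep a) :=
  (H1π (antiRep a)).hom (antiCocycle a hc)

/-- An antidiagonal cocycle with trivial class is a coboundary. -/
lemma isAdCobdry_of_antiClass_eq_zero {c : Γℚ → Matrix (Fin 2) (Fin 2) k} (hc : IsAdCocycle a c)
    (hanti : ∀ g, c g = offDiag (c g)) (h : antiClass a hc = 0) : IsAdCobdry a c := by
  rw [antiClass, H1π_eq_zero_iff] at h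
  obtain ⟨v, hv⟩ := h
  refine ⟨antiMat v, fun g => ?_⟩
  have hg := congrFun hv g
  rw [d₀₁_hom_apply] at hg
  have hv' : antiVec (c g) = antiVec (adCobdry a (antiMat v) g) := by
    rw [antiVec_adCobdry, antiVec_antiMat]
    exact hg.symm
  have h2 : offDiag (adCobdry a (antiMat v) g) = adCobdry a (antiMat v) g := by
    rw [adCobdry]
    have : offDiag (a.ρ g * antiMat v * a.ρ g⁻¹ - antiMat v) =
        offDiag (a.ρ g * antiMat v * a.ρ g⁻¹) - offDiag (antiMat v) := by
      ext i j; fin_cases i <;> fin_cases j <;> simp [offDiag]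
    rw [this, a.offDiag_conj, offDiag_antiMat]
  rw [hanti g, ← h2, ← antiMat_antiVec, ← antiMat_antiVec, hv']

lemma isLevelConstant_antiCocycle {c : Γℚ → Matrix (Fin 2) (Fin 2) k} (hc : IsAdCocycle a c) :
    IsLevelConstant₁ (MonoidHom.id Γℚ) (antiCocycle a hc) := by
  obtain ⟨L, hL, h⟩ := hc.finiteLevel
  refine ⟨L, hL, fun g s hs => ?_⟩
  have hs0 : c s = 0 := h s fun x hx => (IntermediateField.mem_fixingSubgroup_iff L s).mp hs x hx
  show antiVec (c (g * s)) = antiVec (c g)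
  rw [hc.map_mul, hs0, Matrix.mul_zero, Matrix.zero_mul, add_zero]

/-- A cocycle unramified outside `S` gives a class in `H¹` of the group ramified only in `S`. -/
lemma antiClass_mem_continuousH1S {c : Γℚ → Matrix (Fin 2) (Fin 2) k} (hc : IsAdCocycle a c)
    (S : Finset Nat.Primes)
    (hur : ∀ q : Nat.Primes, q ∉ S → ∀ A : ValuationSubring Qbar, A.LiesOverPrime (q : ℕ) →
      ∀ τ ∈ A.inertiaSubgroupIn ℚ, c τ = 0 ∧ a.ρ τ = 1) :
    antiClass a hc ∈ continuousH1S S (antiRep a) := by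
  have hc1 : c 1 = 0 := hc.map_one a
  let K : Subgroup Γℚ :=
    { carrier := {g | c g = 0 ∧ a.ρ g = 1}
      one_mem' := ⟨hc1, map_one _⟩
      mul_mem' := fun {x y} hx hy => ⟨by
        rw [hc.map_mul, hx.1, hy.1, Matrix.mul_zero, Matrix.zero_mul, add_zero], by
        rw [map_mul, hx.2, hy.2, Matrix.one_mul]⟩
      inv_mem' := fun {x} hx => by
        have hρ : a.ρ x⁻¹ = 1 := by
          have := a.rho_inv_mul x
          rwa [hx.2, Matrix.mul_one] at this
        refine ⟨?_, hρ⟩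
        have := hc.map_mul x⁻¹ x
        rw [inv_mul_cancel, hc1, hx.1, Matrix.mul_zero, Matrix.zero_mul, add_zero] at this
        exact this.symm }
  obtain ⟨L, hL, hL0⟩ := hc.finiteLevel
  obtain ⟨F, hF, hF1⟩ := a.finiteLevel
  have : FiniteDimensional ℚ (L ⊔ F : IntermediateField ℚ Qbar) :=
    IntermediateField.finiteDimensional_sup L F
  have hKle : ∀ s ∈ (L ⊔ F).fixingSubgroup, s ∈ K := fun s hs =>
    ⟨hL0 s fun x hx => (IntermediateField.mem_fixingSubgroup_iff _ _).mp hs x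
        ((le_sup_left : L ≤ L ⊔ F) hx),
      hF1 s fun x hx => (IntermediateField.mem_fixingSubgroup_iff _ _).mp hs x
        ((le_sup_right : F ≤ L ⊔ F) hx)⟩
  have hopen : IsOpen (K : Set Γℚ) :=
    Subgroup.isOpen_mono hKle (IntermediateField.fixingSubgroup_isOpen _)
  haveI : IsGalois ℚ Qbar :=
    haveI : IsAlgClosure ℚ Qbar := ⟨inferInstance, AlgebraicClosure.isAlgebraic ℚ⟩
    IsAlgClosure.isGalois ℚ Qbar
  have hfix : (IntermediateField.fixedField K).fixingSubgroup = K :=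
    InfiniteGalois.fixingSubgroup_fixedField ⟨K, Subgroup.isClosed_of_isOpen K hopen⟩
  have hle : IntermediateField.fixedField K ≤ L ⊔ F := by
    rw [← InfiniteGalois.fixedField_fixingSubgroup (L ⊔ F)]
    exact fun x hx s => hx ⟨s.1, hKle s.1 s.2⟩
  refine (mem_continuousH1S_iff S _ _).2 ⟨antiCocycle a hc,
    ⟨IntermediateField.fixedField K, ⟨FiniteDimensional.of_injective
      (IntermediateField.inclusion hle).toLinearMap
      (IntermediateField.inclusion_injective hle), fun q hq A hA => ?_⟩, fun g s hs => ?_⟩, rfl⟩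
  · rw [hfix]
    exact fun τ hτ => hur q hq A hA τ hτ
  · rw [hfix] at hs
    show antiVec (c (g * s)) = antiVec (c g)
    rw [hc.map_mul, (hs : c s = 0 ∧ a.ρ s = 1).1, Matrix.mul_zero, Matrix.zero_mul, add_zero]

lemma antiRep_unramifiedOutside (S : Finset Nat.Primes)
    (hur : ∀ q : Nat.Primes, q ∉ S → (q : ℕ) ≠ 2 ∧ ¬ (q : ℕ) ∣ a.N) :
    CFT.GWUnramifiedOutside (antiRep a) S := fun q hq A hA g hg =>
  antiRep_eq_self_of_rho_eq_one a (a.unramified q q.2 (hur q hq).1 (hur q hq).2 A hA g hg)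

end FermatLib.MLT.Two
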